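import Mathlib
import Fermat.Agent.MU.Lib.Deuring.Basic

section MergeWrap_Lib_Deuring_RedSpace -- from Lib/Deuring/RedSpace.lean

set_option autoImplicit false

/-!
# Deuring library: the reduction of a finite-dimensional space of functions

`redSpace S W` is the set of reductions of `W ∩ Ov`; under the lattice property its dimension
over `k` is the dimension of `W` over `K`.
-/

noncomputable section

open AlgebraicCurve Fermat.Agent.RR

namespace Fermat.Agent.Deuring

variable {K F k Fk : Type*} [Field K] [Field F] [Algebra K F]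
  [Field k] [Field Fk] [Algebra k Fk]

/-- in a valuation ring, a finite family of elements of the fraction field, not all zero, has a
member of maximal valuation. -/
theorem exists_max_coeff (A : ValuationSubring K) {ι : Type*} [Finite ι] (c : ι → K)
    (hc : ∃ i, c i ≠ 0) : ∃ i₀, c i₀ ≠ 0 ∧ ∀ i, c i * (c i₀)⁻¹ ∈ A := by
  classical
  have := Fintype.ofFinite ι
  obtain ⟨j, hj⟩ := hc
  obtain ⟨i₀, -, hi₀⟩ := Finset.exists_max_image (Finset.univ : Finset ι)
    (fun i => A.valuation (c i)) ⟨j, Finset.mem_univ j⟩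
  have hne : c i₀ ≠ 0 := by
    intro h0
    have h1 := hi₀ j (Finset.mem_univ j)
    rw [h0, map_zero] at h1
    exact hj ((map_eq_zero _).mp (le_antisymm h1 zero_le))
  refine ⟨i₀, hne, fun i => ?_⟩
  rw [← A.valuation_le_one_iff, map_mul, map_inv₀]
  have h1 := hi₀ i (Finset.mem_univ i)
  have h2 : A.valuation (c i₀) ≠ 0 := (map_ne_zero _).mpr hne
  exact mul_inv_le_one_of_le₀ h1 zero_le

variable (S : ValSetup K F k Fk)

theorem zero_mem_redSet (W : Submodule K F) : (0 : Fk) ∈ redSet S W :=
  ⟨0, zero_mem _, zero_mem _, S.red_zero⟩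

theorem add_mem_redSet (W : Submodule K F) {y y' : Fk} (hy : y ∈ redSet S W)
    (hy' : y' ∈ redSet S W) : y + y' ∈ redSet S W := by
  obtain ⟨x, hxW, hxO, rfl⟩ := hy
  obtain ⟨x', hxW', hxO', rfl⟩ := hy'
  exact ⟨x + x', add_mem hxW hxW', add_mem hxO hxO', S.red_add hxO hxO'⟩

theorem smul_mem_redSet (W : Submodule K F) (l : k) {y : Fk} (hy : y ∈ redSet S W) :
    l • y ∈ redSet S W := by
  obtain ⟨x, hxW, hxO, rfl⟩ := hy
  obtain ⟨⟨a, ha⟩, rfl⟩ := S.res_surj l
  exact ⟨a • x, W.smul_mem a hxW, S.smul_mem ha hxO, S.red_smul ha hxO⟩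

theorem mem_redSpace_iff (W : Submodule K F) {y : Fk} :
    y ∈ redSpace S W ↔ ∃ x ∈ W, x ∈ S.Ov ∧ S.red x = y := by
  constructor
  · intro hy
    unfold redSpace at hy
    induction hy using Submodule.span_induction with
    | mem y hy => exact hy
    | zero => exact zero_mem_redSet S W
    | add y y' _ _ hy hy' => exact add_mem_redSet S W hy hy'
    | smul l y _ hy => exact smul_mem_redSet S W l hy
  · intro hy
    exact Submodule.subset_span hy

theorem red_mem_redSpace (W : Submodule K F) {x : F} (hxW : x ∈ W) (hxO : x ∈ S.Ov) :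
    S.red x ∈ redSpace S W :=
  (mem_redSpace_iff S W).mpr ⟨x, hxW, hxO, rfl⟩

theorem redSpace_mono {W W' : Submodule K F} (h : W ≤ W') : redSpace S W ≤ redSpace S W' := by
  intro y hy
  obtain ⟨x, hxW, hxO, rfl⟩ := (mem_redSpace_iff S W).mp hy
  exact red_mem_redSpace S W' (h hxW) hxO

/-- reduction of a linear combination with integral coefficients. -/
theorem red_sum {n : ℕ} (w : Fin n → F) (hw : ∀ i, w i ∈ S.Ov) (c : Fin n → K)
    (hc : ∀ i, c i ∈ S.A) :
    (∑ i, c i • w i) ∈ S.Ov ∧
      S.red (∑ i, c i • w i) = ∑ i, S.res ⟨c i, hc i⟩ • S.red (w i) := by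
  classical
  suffices h : ∀ s : Finset (Fin n), (∑ i ∈ s, c i • w i) ∈ S.Ov ∧
      S.red (∑ i ∈ s, c i • w i) = ∑ i ∈ s, S.res ⟨c i, hc i⟩ • S.red (w i) from h Finset.univ
  intro s
  induction s using Finset.induction_on with
  | empty => simp
  | insert a s ha ih =>
    rw [Finset.sum_insert ha, Finset.sum_insert ha]
    refine ⟨add_mem (S.smul_mem (hc a) (hw a)) ih.1, ?_⟩
    rw [S.red_add (S.smul_mem (hc a) (hw a)) ih.1, S.red_smul (hc a) (hw a), ih.2]

/-- an orthonormal family: integral elements with linearly independent reductions.  A linear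
combination is integral iff all coefficients are. -/
theorem coeff_mem_of_sum_mem {n : ℕ} (w : Fin n → F) (hw : ∀ i, w i ∈ S.Ov)
    (hli : LinearIndependent k (fun i => S.red (w i))) (c : Fin n → K)
    (hsum : (∑ i, c i • w i) ∈ S.Ov) : ∀ i, c i ∈ S.A := by
  classical
  by_contra hcon
  push Not at hcon
  obtain ⟨j, hj⟩ := hcon
  have hj0 : c j ≠ 0 := by
    rintro h0
    exact hj (h0 ▸ zero_mem _)
  obtain ⟨i₀, hi₀, hall⟩ := exists_max_coeff S.A c ⟨j, hj0⟩
  -- `c i₀ ∉ A`
  have hi₀A : c i₀ ∉ S.A := by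
    intro h
    apply hj
    have := mul_mem (hall j) h
    rwa [inv_mul_cancel_right₀ hi₀] at this
  obtain ⟨hinv, hres⟩ := S.res_inv_eq_zero hi₀A
  -- the normalised combination
  set d : Fin n → K := fun i => c i * (c i₀)⁻¹ with hd
  have hd_mem : ∀ i, d i ∈ S.A := hall
  have hsum' : ∑ i, d i • w i = (c i₀)⁻¹ • ∑ i, c i • w i := by
    rw [Finset.smul_sum]
    refine Finset.sum_congr rfl fun i _ => ?_
    rw [hd, smul_smul, mul_comm]
  have h1 := (red_sum S w hw d hd_mem).2
  rw [hsum', S.red_smul hinv hsum, hres, zero_smul] at h1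
  have h2 := (Fintype.linearIndependent_iff.mp hli) (fun i => S.res ⟨d i, hd_mem i⟩) h1.symm i₀
  have h3 : (⟨d i₀, hd_mem i₀⟩ : S.A) = 1 := by
    apply Subtype.ext
    show c i₀ * (c i₀)⁻¹ = 1
    exact mul_inv_cancel₀ hi₀
  rw [h3, map_one] at h2
  exact one_ne_zero h2

/-- an orthonormal family is linearly independent over `K`. -/
theorem linearIndependent_of_red {n : ℕ} (w : Fin n → F) (hw : ∀ i, w i ∈ S.Ov)
    (hli : LinearIndependent k (fun i => S.red (w i))) : LinearIndependent K w := by
  classical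
  rw [Fintype.linearIndependent_iff]
  intro c hc
  by_contra hcon
  push Not at hcon
  obtain ⟨j, hj⟩ := hcon
  obtain ⟨i₀, hi₀, hall⟩ := exists_max_coeff S.A c ⟨j, hj⟩
  set d : Fin n → K := fun i => c i * (c i₀)⁻¹ with hd
  have hd_mem : ∀ i, d i ∈ S.A := hall
  have hsum' : ∑ i, d i • w i = (c i₀)⁻¹ • ∑ i, c i • w i := by
    rw [Finset.smul_sum]
    refine Finset.sum_congr rfl fun i _ => ?_
    rw [hd, smul_smul, mul_comm]
  have h1 := (red_sum S w hw d hd_mem).2
  rw [hsum', hc, smul_zero, S.red_zero] at h1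
  have h2 := (Fintype.linearIndependent_iff.mp hli) (fun i => S.res ⟨d i, hd_mem i⟩) h1.symm i₀
  have h3 : (⟨d i₀, hd_mem i₀⟩ : S.A) = 1 := by
    apply Subtype.ext
    show c i₀ * (c i₀)⁻¹ = 1
    exact mul_inv_cancel₀ hi₀
  rw [h3, map_one] at h2
  exact one_ne_zero h2

/-- the reduction of the span of an orthonormal family. -/
theorem redSpace_span {n : ℕ} (w : Fin n → F) (hw : ∀ i, w i ∈ S.Ov)
    (hli : LinearIndependent k (fun i => S.red (w i))) :
    redSpace S (Submodule.span K (Set.range w)) =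
      Submodule.span k (Set.range fun i => S.red (w i)) := by
  apply le_antisymm
  · intro y hy
    obtain ⟨x, hxW, hxO, rfl⟩ := (mem_redSpace_iff S _).mp hy
    obtain ⟨c, rfl⟩ := (Submodule.mem_span_range_iff_exists_fun K).mp hxW
    have hc := coeff_mem_of_sum_mem S w hw hli c hxO
    rw [(red_sum S w hw c hc).2]
    exact Submodule.sum_mem _ fun i _ =>
      Submodule.smul_mem _ _ (Submodule.subset_span ⟨i, rfl⟩)
  · rw [Submodule.span_le]
    rintro y ⟨i, rfl⟩
    exact red_mem_redSpace S _ (Submodule.subset_span ⟨i, rfl⟩) (hw i)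

/-- **dimension of the reduction** under the lattice property. -/
theorem finrank_redSpace (hL : HasLattice S) (W : Submodule K F) [hW : FiniteDimensional K W] :
    Module.finrank k (redSpace S W) = Module.finrank K W := by
  obtain ⟨n, w, hwW, hwO, hspan, hli⟩ := hL W hW
  have hliK := linearIndependent_of_red S w hwO hli
  have h1 : Module.finrank K W = n := by
    rw [← hspan, finrank_span_eq_card hliK, Fintype.card_fin]
  have h2 : Module.finrank k (redSpace S W) = n := by
    rw [← hspan, redSpace_span S w hwO hli, finrank_span_eq_card hli, Fintype.card_fin]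
  rw [h1, h2]

theorem finiteDimensional_redSpace (hL : HasLattice S) (W : Submodule K F)
    [hW : FiniteDimensional K W] : FiniteDimensional k (redSpace S W) := by
  obtain ⟨n, w, hwW, hwO, hspan, hli⟩ := hL W hW
  rw [← hspan, redSpace_span S w hwO hli]
  exact FiniteDimensional.span_of_finite k (Set.finite_range _)

end Fermat.Agent.Deuring
end
end MergeWrap_Lib_Deuring_RedSpace
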