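import Mathlib
import Fermat.Agent.MU.Lib.Deuring.RedSpace

section MergeWrap_Lib_Deuring_FundIneqAux -- from Lib/Deuring/FundIneqAux.lean

set_option autoImplicit false

/-!
# Deuring library: auxiliary lemmas for the fundamental inequality (helper80)

Special fibre (pure Riemann-Roch on ONE function field `Fk / k`): for every `x : Fk` with pole
divisor `B` of degree `d` there are `y_1, ..., y_d` such that the family `x ^ j * y_i`
(`j : ℕ`, `i : Fin d`) is `k`-linearly independent (`fi_exists_family`).

Proof: `Z` = zero divisor of `x`, `m` large, `y_i ∈ L(m B)` independent modulo `L(m B - Z)`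
(Riemann-Roch: the quotient has dimension `deg Z = d`).  A relation `∑ c_i(x) y_i = 0`,
`c_i ∈ k[X]`, gives `∑ c_i(0) y_i = - x * ∑ (c_i / X)(x) y_i ∈ L(m B - Z)`, so all `c_i(0) = 0`;
divide by `x` and repeat.
-/

noncomputable section

open AlgebraicCurve Fermat.Agent.RR Polynomial

namespace Fermat.Agent.Deuring

section Special

variable {k Fk : Type*} [Field k] [Field Fk] [Algebra k Fk]

/-- `div x = (x)_0 - (x)_∞`, where the zero divisor is the pole divisor of `x⁻¹`. -/
theorem fi_divOf_eq (h : IsRRField k Fk) (x : Fk) :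
    divOf h x = poleDiv h x⁻¹ - poleDiv h x := by
  ext v
  rw [Finsupp.sub_apply, divOf_apply, poleDiv_apply, poleDiv_apply, v.ord_inv, neg_neg]
  rcases le_total (v.ord x) 0 with h0 | h0
  · rw [max_eq_right h0, max_eq_left (by omega)]
    omega
  · rw [max_eq_left h0, max_eq_right (by omega)]
    omega

theorem fi_degree_zeroDiv (h : IsRRField k Fk) (x : Fk) :
    Divisor.degree (poleDiv h x⁻¹) = Divisor.degree (poleDiv h x) := by
  have h1 := degree_divOf h x
  rw [fi_divOf_eq, map_sub] at h1
  omega

/-- a family of `dim V - dim U` elements of `V` which is independent modulo `U`. -/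
theorem fi_exists_indep_mod (V U : Submodule k Fk) [FiniteDimensional k V] (hUV : U ≤ V)
    {d : ℕ} (hd : Module.finrank k V = Module.finrank k U + d) :
    ∃ y : Fin d → Fk, (∀ i, y i ∈ V) ∧ ∀ a : Fin d → k, ∑ i, a i • y i ∈ U → a = 0 := by
  obtain ⟨C', hC'⟩ := Submodule.exists_isCompl U
  set C : Submodule k Fk := C' ⊓ V with hCdef
  have hCV : C ≤ V := inf_le_right
  have : FiniteDimensional k C := Submodule.finiteDimensional_of_le hCV
  have : FiniteDimensional k U := Submodule.finiteDimensional_of_le hUV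
  have hsup : U ⊔ C = V := by
    rw [hCdef, ← sup_inf_assoc_of_le C' hUV, hC'.sup_eq_top, top_inf_eq]
  have hinf : U ⊓ C = ⊥ := by
    rw [hCdef, ← inf_assoc, hC'.inf_eq_bot, bot_inf_eq]
  have h1 := Submodule.finrank_sup_add_finrank_inf_eq U C
  rw [hsup, hinf, finrank_bot, add_zero] at h1
  have h3 : Module.finrank k C = d := by omega
  let b := Module.finBasisOfFinrankEq k C h3
  refine ⟨fun i => (b i : Fk), fun i => hCV (b i).2, fun a ha => ?_⟩
  have hcoe : ((∑ i, a i • b i : C) : Fk) = ∑ i, a i • (b i : Fk) := by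
    push_cast
    rfl
  have hz : (∑ i, a i • b i : C) = 0 := by
    have hmem : ((∑ i, a i • b i : C) : Fk) ∈ U ⊓ C :=
      ⟨by rw [hcoe]; exact ha, Subtype.mem _⟩
    rw [hinf, Submodule.mem_bot] at hmem
    exact Subtype.ext hmem
  funext i
  exact (Fintype.linearIndependent_iff.mp b.linearIndependent) a hz i

/-- polynomials in an element without pole at `v` have no pole at `v`. -/
theorem fi_aeval_mem (v : Place k Fk) {x : Fk} (hx : x ∈ v.toValuationSubring) (q : k[X]) :
    aeval x q ∈ v.toValuationSubring := by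
  rw [aeval_eq_sum_range]
  refine sum_mem fun i _ => ?_
  rw [Algebra.smul_def]
  exact mul_mem (v.algebraMap_mem' _) (pow_mem hx i)

variable (h : IsRRField k Fk) {x : Fk} {m d : ℕ} (y : Fin d → Fk)

/-- key step: the constant terms of a relation vanish. -/
theorem fi_coeff_zero_eq_zero
    (hyV : ∀ i, y i ∈ riemannRochSpace (m • poleDiv h x))
    (hind : ∀ a : Fin d → k,
      ∑ i, a i • y i ∈ riemannRochSpace (m • poleDiv h x - poleDiv h x⁻¹) → a = 0)
    (c : Fin d → k[X]) (hc : ∑ i, aeval x (c i) * y i = 0) : ∀ i, (c i).coeff 0 = 0 := by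
  set T : Fk := ∑ i, (c i).coeff 0 • y i with hT
  set H : Fk := ∑ i, aeval x (c i).divX * y i with hH
  have hsplit : T + x * H = 0 := by
    rw [← hc, hT, hH, Finset.mul_sum, ← Finset.sum_add_distrib]
    refine Finset.sum_congr rfl fun i _ => ?_
    conv_rhs => rw [← divX_mul_X_add (c i)]
    rw [map_add, map_mul, aeval_X, aeval_C, Algebra.smul_def]
    ring
  have hTH : T = x * (-H) := by
    rw [mul_neg]
    exact eq_neg_of_add_eq_zero_left hsplit
  have hTV : T ∈ riemannRochSpace (m • poleDiv h x) :=
    Submodule.sum_mem _ fun i _ => Submodule.smul_mem _ _ (hyV i)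
  have hTU : T ∈ riemannRochSpace (m • poleDiv h x - poleDiv h x⁻¹) := by
    rw [mem_riemannRochSpace_iff]
    intro v
    by_cases hT0 : T = 0
    · exact Or.inl hT0
    right
    have h1 : -(m • poleDiv h x) v ≤ v.ord T :=
      ((mem_riemannRochSpace_iff.mp hTV) v).resolve_left hT0
    rw [Finsupp.smul_apply, poleDiv_apply, nsmul_eq_mul] at h1
    rw [Finsupp.sub_apply, Finsupp.smul_apply, poleDiv_apply, poleDiv_apply, v.ord_inv, neg_neg,
      nsmul_eq_mul]
    rcases le_or_gt (v.ord x) 0 with hx0 | hx0
    · rw [max_eq_right hx0]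
      omega
    · -- `v` is a zero of `x`
      have hB : max (-(v.ord x)) 0 = 0 := max_eq_right (by omega)
      rw [hB, max_eq_left hx0.le]
      have hxne : x ≠ 0 := by
        rintro rfl
        rw [v.ord_zero] at hx0
        exact lt_irrefl _ hx0
      have hH0 : -H ≠ 0 := by
        intro h0
        apply hT0
        rw [hTH, h0, mul_zero]
      have hxmem : x ∈ v.toValuationSubring :=
        Fermat.Agent.S24Res.mem_of_ord_nonneg v hx0.le
      have hymem : ∀ i, y i ∈ v.toValuationSubring := by
        intro i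
        rcases (mem_riemannRochSpace_iff.mp (hyV i)) v with h0 | h0
        · rw [h0]
          exact zero_mem _
        · apply Fermat.Agent.S24Res.mem_of_ord_nonneg
          rw [Finsupp.smul_apply, poleDiv_apply, hB] at h0
          simpa using h0
      have hHmem : -H ∈ v.toValuationSubring :=
        neg_mem (sum_mem fun i _ => mul_mem (fi_aeval_mem v hxmem _) (hymem i))
      have hHord := Fermat.Agent.S24Res.ord_nonneg_of_mem v hHmem
      rw [hTH, v.ord_mul hxne hH0]
      omega
  have := hind (fun i => (c i).coeff 0) hTU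
  intro i
  exact congrFun this i

/-- a polynomial relation between the `y i` is trivial. -/
theorem fi_eq_zero_of_relation (hx : x ≠ 0)
    (hyV : ∀ i, y i ∈ riemannRochSpace (m • poleDiv h x))
    (hind : ∀ a : Fin d → k,
      ∑ i, a i • y i ∈ riemannRochSpace (m • poleDiv h x - poleDiv h x⁻¹) → a = 0)
    (c : Fin d → k[X]) (hc : ∑ i, aeval x (c i) * y i = 0) : c = 0 := by
  have key : ∀ (n : ℕ) (c : Fin d → k[X]), ∑ i, aeval x (c i) * y i = 0 →
      ∀ i, (c i).coeff n = 0 := by
    intro n
    induction n with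
    | zero => exact fun c hc => fi_coeff_zero_eq_zero h y hyV hind c hc
    | succ n ih =>
      intro c hc i
      have h0 := fi_coeff_zero_eq_zero h y hyV hind c hc
      have hrel : ∑ i, aeval x (c i).divX * y i = 0 := by
        have h1 : x * ∑ i, aeval x (c i).divX * y i = 0 := by
          rw [← hc, Finset.mul_sum]
          refine Finset.sum_congr rfl fun i _ => ?_
          conv_rhs => rw [← divX_mul_X_add (c i), h0 i]
          rw [map_zero, add_zero, map_mul, aeval_X]
          ring
        exact (mul_eq_zero.mp h1).resolve_left hx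
      have := ih (fun i => (c i).divX) hrel i
      rwa [coeff_divX] at this
  funext i
  ext n
  rw [Pi.zero_apply, coeff_zero]
  exact key n c hc i

/-- the `k`-linear map `c ↦ ∑ c_i(x) y_i`. -/
def fi_evalMap (x : Fk) (y : Fin d → Fk) : (Fin d → k[X]) →ₗ[k] Fk :=
  ∑ i, ((LinearMap.mulRight k (y i)).comp (aeval x).toLinearMap).comp (LinearMap.proj i)

theorem fi_evalMap_apply (x : Fk) (y : Fin d → Fk) (c : Fin d → k[X]) :
    fi_evalMap (k := k) x y c = ∑ i, aeval x (c i) * y i := by
  simp [fi_evalMap, LinearMap.sum_apply]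

theorem fi_evalMap_single (x : Fk) (y : Fin d → Fk) (i : Fin d) (q : k[X]) :
    fi_evalMap (k := k) x y (Pi.single i q) = aeval x q * y i := by
  classical
  rw [fi_evalMap_apply, Finset.sum_eq_single i]
  · rw [Pi.single_eq_same]
  · intro j _ hj
    rw [Pi.single_eq_of_ne hj, map_zero, zero_mul]
  · intro hi
    exact absurd (Finset.mem_univ i) hi

/-- linear independence of the family `x ^ j * y i`. -/
theorem fi_linearIndependent_pow_mul (hx : x ≠ 0)
    (hyV : ∀ i, y i ∈ riemannRochSpace (m • poleDiv h x))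
    (hind : ∀ a : Fin d → k,
      ∑ i, a i • y i ∈ riemannRochSpace (m • poleDiv h x - poleDiv h x⁻¹) → a = 0) :
    LinearIndependent k (fun p : ℕ × Fin d => x ^ p.1 * y p.2) := by
  classical
  have hker : LinearMap.ker (fi_evalMap (k := k) x y) = ⊥ := by
    rw [LinearMap.ker_eq_bot']
    intro c hc
    rw [fi_evalMap_apply] at hc
    exact fi_eq_zero_of_relation h y hx hyV hind c hc
  let B := Pi.basis (fun _ : Fin d => basisMonomials k)
  have h1 := B.linearIndependent.map' (fi_evalMap (k := k) x y) hker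
  have h2 := h1.comp (fun p : ℕ × Fin d => (⟨p.2, p.1⟩ : (_ : Fin d) × ℕ)) (by
    intro p q hpq
    simp only [Sigma.mk.injEq, heq_eq_eq] at hpq
    exact Prod.ext hpq.2 hpq.1)
  have e : (fun p : ℕ × Fin d => x ^ p.1 * y p.2) =
      (⇑(fi_evalMap (k := k) x y) ∘ ⇑B) ∘ (fun p : ℕ × Fin d => (⟨p.2, p.1⟩ : (_ : Fin d) × ℕ)) := by
    funext p
    simp only [Function.comp_apply]
    have hb : (basisMonomials k) p.1 = monomial p.1 (1 : k) := by rw [coe_basisMonomials]
    rw [show B ⟨p.2, p.1⟩ = Pi.single p.2 (basisMonomials k p.1) from Pi.basis_apply _ _,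
      fi_evalMap_single, hb, aeval_monomial, (algebraMap k Fk).map_one, one_mul]
  rw [e]
  exact h2

/-- **special fibre**: `d = deg (x)_∞` elements `y i` with `x ^ j * y i` linearly independent. -/
theorem fi_exists_family_aux (x : Fk) (d : ℕ) (hd : (d : ℤ) = Divisor.degree (poleDiv h x)) :
    ∃ y : Fin d → Fk, LinearIndependent k (fun p : ℕ × Fin d => x ^ p.1 * y p.2) := by
  rcases Nat.eq_zero_or_pos d with rfl | hdpos
  · exact ⟨fun i => i.elim0, linearIndependent_empty_type⟩
  have hx : x ≠ 0 := by
    rintro rfl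
    have h0 : poleDiv h (0 : Fk) = 0 := by
      ext v
      rw [poleDiv_apply, v.ord_zero]
      simp
    rw [h0, map_zero] at hd
    omega
  set g : ℕ := genusFF k Fk with hg
  set m : ℕ := 2 * g + 1 with hm
  set B := poleDiv h x with hB
  set Z := poleDiv h x⁻¹ with hZ
  have hZdeg : Divisor.degree Z = d := by rw [hZ, fi_degree_zeroDiv, ← hd]
  have hBdeg : Divisor.degree B = d := hd.symm
  have hZ0 : 0 ≤ Z := poleDiv_nonneg h _
  have hdegV : Divisor.degree (m • B) = (m : ℤ) * d := by
    rw [map_nsmul, nsmul_eq_mul, hBdeg]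
  have hdegU : Divisor.degree (m • B - Z) = (m : ℤ) * d - d := by
    rw [map_sub, hdegV, hZdeg]
  have hd1 : (1 : ℤ) ≤ d := by exact_mod_cast hdpos
  have hmz : (m : ℤ) = 2 * g + 1 := by
    rw [hm]
    push_cast
    ring
  have hellV := ell_of_degree_gt h (D := m • B) (by rw [hdegV, hmz]; nlinarith)
  have hellU := ell_of_degree_gt h (D := m • B - Z) (by rw [hdegU, hmz]; nlinarith)
  rw [hdegV] at hellV
  rw [hdegU] at hellU
  have hle : m • B - Z ≤ m • B := sub_le_self _ hZ0
  have hfinV := finite_riemannRochSpace h (m • B)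
  have hfin : Module.finrank k (riemannRochSpace (m • B)) =
      Module.finrank k (riemannRochSpace (m • B - Z)) + d := by
    have h1 : (ell (m • B) : ℤ) = (ell (m • B - Z) : ℤ) + d := by
      rw [hellV, hellU]
      ring
    rw [ell_def, ell_def] at h1
    exact_mod_cast h1
  obtain ⟨y, hyV, hind⟩ := fi_exists_indep_mod (riemannRochSpace (m • B))
    (riemannRochSpace (m • B - Z)) (riemannRochSpace_mono hle) hfin
  exact ⟨y, fi_linearIndependent_pow_mul h y hx hyV hind⟩

end Special

end Fermat.Agent.Deuring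
end
end MergeWrap_Lib_Deuring_FundIneqAux
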