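import Mathlib
import Fermat.Agent.MU.Lib.Deuring.Construct
import Fermat.Agent.MU.Lib.Deuring.FundIneq

section MergeWrap_Lib_Deuring_Main -- from Lib/Deuring/Main.lean

set_option autoImplicit false

/-!
# Deuring's reduction of divisors (abstract): main theorem

`exists_reduction`: from the lattice property and genus equality, a reduction map of places
`r : Place K F → Place k Fk` with
* (push) `r_* (div f) = div (red f)` for units `f` of `Ov`,
* (GR)   `red (L(B) ∩ Ov) = L_k(r_* B)` for every divisor `B` of degree `≥ 2g`,
* (deg)  `deg r_* B = deg B`.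
-/

noncomputable section

open AlgebraicCurve Fermat.Agent.RR

namespace Fermat.Agent.Deuring

variable {K F k Fk : Type*} [Field K] [Field F] [Algebra K F]
  [Field k] [Field Fk] [Algebra k Fk]

theorem fundIneqProp (S : ValSetup K F k Fk) : FundIneqProp S :=
  fun _ hw htr => degree_poleDiv_red_le S hw htr

/-- **Deuring's reduction map**. -/
theorem exists_reduction (S : ValSetup K F k Fk) (hL : HasLattice S) [Infinite k]
    (hg : genusFF K F = genusFF k Fk) :
    ∃ r : Place K F → Place k Fk,
      (∀ f : F, f ∈ S.Ov → f⁻¹ ∈ S.Ov → f ≠ 0 → ∀ Q : Place k Fk,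
        Finsupp.mapDomain r (divOf S.hF f) Q = Q.ord (S.red f)) ∧
      (∀ B : Divisor K F, 2 * (genusFF K F : ℤ) ≤ Divisor.degree B →
        redSpace S (riemannRochSpace B) = riemannRochSpace (Finsupp.mapDomain r B)) ∧
      (∀ B : Divisor K F, Divisor.degree (Finsupp.mapDomain r B) = Divisor.degree B) :=
  exists_reduction_of_fundIneq S hL (fundIneqProp S) hg

end Fermat.Agent.Deuring
end
end MergeWrap_Lib_Deuring_Main
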